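/-
S33 / row 61 top level (helper15): **the hypothesis (σ₀)** — for a representation
`ρ : GaloisRepAdic R` with Frobenius characteristic polynomials `X² - π(T_ℓ) X + ℓ` (`ℓ ∉ S`) over a
local noetherian ring `R` with `p ∈ 𝔪_R`, `p` odd, every inertia group `I_P`, `P ∣ p`, contains
`σ₀` with `det ρ(σ₀) - 1` a UNIT of `R`.

* `det_sub_intCast_mem_pow` : `χ_cyc(g) ≡ z mod p ^ n` (`z ∈ ℤ`) `⇒ det ρ(g) - z ∈ 𝔪_R ^ n`
  (the Frobenius-power density argument of `S32.Carayol.DetConj.det_eq_intCast_of_cyclo_eq_intCast`,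
  one level at a time);
* `exists_mem_inertia_isUnit_det_sub_one` : **(σ₀)**, from `S56.Loc.CycloRamified.exists_mem_inertia_ne`
  (the mod `p` cyclotomic character is ramified at `p`);
* `exists_mem_inertia_isUnit_det_sub_one_datum` : the same for a Hecke–Galois datum `H`, in the
  shape `hσ₀` of `S33.Alg.Ordinary.isOrdinaryAt_of_old_new`.
-/
import Mathlib
import Fermat.Prelude.Def_CuspForm_HeckeGaloisRepDatum
import Fermat.Agent.S32.Carayol.DetConj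
import Fermat.Agent.S32.Carayol.FiniteLevel
import Fermat.Agent.S56.Loc.CycloRamified

set_option autoImplicit false
set_option linter.style.haveILetI false
set_option linter.unusedSectionVars false

open Polynomial

namespace Fermat.Agent.S33.Asm.SigmaZero

open Fermat.Agent.N4F.Adic Fermat.Agent.N4F.Adic.S31Lattice Fermat.Agent.N4F.Adic.S31Trace
  Fermat.Agent.N4F.Adic.S31Assembly Fermat.Agent.N4F.Adic.S34Assembly
  Fermat.Agent.N4.FrobDensity Fermat.Agent.N4F.Tors.Occurrence CuspForm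

local notation "Qbar" => AlgebraicClosure ℚ
local notation "Γ" => (AlgebraicClosure ℚ ≃ₐ[ℚ] AlgebraicClosure ℚ)

local instance isAlgebraicQbar_SigmaZero : Algebra.IsAlgebraic ℚ (AlgebraicClosure ℚ) :=
  AlgebraicClosure.isAlgebraic ℚ
local instance isAlgClosureQbar_SigmaZero : IsAlgClosure ℚ (AlgebraicClosure ℚ) :=
  ⟨inferInstance, inferInstance⟩
local instance normalQbar_SigmaZero : Normal ℚ (AlgebraicClosure ℚ) :=
  IsAlgClosure.normal ℚ (AlgebraicClosure ℚ)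

section Main

variable {p N : ℕ} [Fact p.Prime] [NeZero N] (S : Finset ℕ)
  {R : Type} [CommRing R] [IsLocalRing R] [IsNoetherianRing R]
  (hpS : p ∈ S) (hNS : ∀ q : ℕ, q.Prime → q ∣ N → q ∈ S)
  (π : heckeAlgebra N 2 (↑S : Set ℕ) →+* R) (ρ : GaloisRepAdic R)
  (hfrob : ∀ (ℓ : ℕ) (hℓ : ℓ.Prime) (hℓN : ¬ ℓ ∣ N) (hℓS : ℓ ∉ (↑S : Set ℕ)),
    ∀ A : ValuationSubring Qbar, A.LiesOverPrime ℓ → ∀ σ : Γ, A.IsFrobeniusAt σ ℓ →
      LinearMap.charpoly (ρ.ρ σ) = X ^ 2 - C (π (heckeAlgebra.T hℓ hℓN hℓS)) * X + C ((ℓ : R)))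

include hpS hNS hfrob in
/-- `χ_cyc(g) ≡ z mod p ^ n` (`z ∈ ℤ`) `⇒ det ρ(g) ≡ z mod 𝔪_R ^ n`. -/
theorem det_sub_intCast_mem_pow (hpR : (p : R) ∈ IsLocalRing.maximalIdeal R) (g : Γ)
    (z : ℤ) (n : ℕ)
    (hg : ((cycloCharAdic p g : ℤ_[p]ˣ) : ℤ_[p]) - (z : ℤ_[p]) ∈ Ideal.span {(p : ℤ_[p]) ^ n}) :
    LinearMap.det (ρ.ρ g) - (z : R) ∈ IsLocalRing.maximalIdeal R ^ n := by
  obtain ⟨L, hfd, hn, h₂, h₃⟩ := exists_normal_level_of_pred
    (fun σ => ((cycloCharAdic p σ : ℤ_[p]ˣ) : ℤ_[p]) - 1 ∈ Ideal.span {(p : ℤ_[p]) ^ n})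
    (fun σ => ρ.ρ σ - 1 ∈ smallEnd (V := ρ.V) (IsLocalRing.maximalIdeal R ^ n))
    (cycloCharAdic_continuous p n)
    (by
      obtain ⟨L, hL, h⟩ := ρ.isAdicContinuous n
      exact ⟨L, hL, fun σ hσ v => by
        rw [LinearMap.sub_apply, Module.End.one_apply]
        exact h σ hσ v⟩)
  obtain ⟨l, hl, hlS, A, hlA, φ, hφ, m, hm⟩ := exists_isFrobeniusAt_pow_eq L g S
  have hlp : l ≠ p := fun h => hlS (h ▸ hpS)
  have hlN : ¬ l ∣ N := fun h => hlS (hNS l hl h)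
  have hlS' : l ∉ (↑S : Set ℕ) := fun h => hlS (Finset.mem_coe.1 h)
  -- determinants
  have h4 := det_sub_det_mem _ _ _ (sub_mem_smallEnd_of_restrict_eq L _ ρ.ρ h₃ hm)
  have hdetφ : LinearMap.det (ρ.ρ φ) = (l : R) := by
    rw [LinearMap.det_eq_sign_charpoly_coeff, ρ.finrank_eq, hfrob l hl hlN hlS' A hlA φ hφ]
    simp [coeff_X, coeff_C]
  rw [map_pow, map_pow, hdetφ] at h4
  -- the cyclotomic character
  have hker : AlgEquiv.restrictNormalHom L ((φ ^ m)⁻¹ * g) = 1 := by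
    rw [map_mul, map_inv, hm, inv_mul_cancel]
  have h5 := h₂ _ hker
  have hχ : ((cycloCharAdic p φ : ℤ_[p]ˣ) : ℤ_[p]) = (l : ℤ_[p]) :=
    cycloCharAdic_frob p hl hlp hlA hφ
  rw [map_mul, map_inv, map_pow] at h5
  have h6 : (z : ℤ_[p]) - (l : ℤ_[p]) ^ m ∈ Ideal.span {(p : ℤ_[p]) ^ n} := by
    have h7 : (z : ℤ_[p]) - (l : ℤ_[p]) ^ m
        = ((l : ℤ_[p]) ^ m) *
          ((((cycloCharAdic p φ ^ m)⁻¹ * cycloCharAdic p g : ℤ_[p]ˣ) : ℤ_[p]) - 1)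
          - (((cycloCharAdic p g : ℤ_[p]ˣ) : ℤ_[p]) - (z : ℤ_[p])) := by
      rw [mul_sub, mul_one, Units.val_mul, ← mul_assoc, ← hχ, ← Units.val_pow_eq_pow_val,
        ← Units.val_mul, mul_inv_cancel, Units.val_one, one_mul]
      ring
    rw [h7]
    exact Ideal.sub_mem _ (Ideal.mul_mem_left _ _ h5) hg
  have h8 : ((p : ℤ) ^ n) ∣ (z - (l : ℤ) ^ m) := by
    rw [Ideal.mem_span_singleton] at h6
    have h9 : ((z - (l : ℤ) ^ m : ℤ) : ℤ_[p]) = (z : ℤ_[p]) - (l : ℤ_[p]) ^ m := by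
      push_cast; rfl
    rw [← h9, PadicInt.pow_p_dvd_int_iff] at h6
    exact h6
  obtain ⟨c, hc⟩ := h8
  have h10 : (z : R) - (l : R) ^ m ∈ IsLocalRing.maximalIdeal R ^ n := by
    have h11 : (z : R) - (l : R) ^ m = ((z - (l : ℤ) ^ m : ℤ) : R) := by push_cast; rfl
    rw [h11, hc]
    push_cast
    exact Ideal.mul_mem_right _ _ (Ideal.pow_mem_pow hpR n)
  have h12 : LinearMap.det (ρ.ρ g) - (z : R)
      = (LinearMap.det (ρ.ρ g) - (l : R) ^ m) - ((z : R) - (l : R) ^ m) := by ring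
  rw [h12]
  exact Ideal.sub_mem _ h4 h10

include hpS hNS hfrob in
/-- **(σ₀)**: for `p` odd and `P ∣ p`, some `σ₀ ∈ I_P` has `det ρ(σ₀) - 1` a unit. -/
theorem exists_mem_inertia_isUnit_det_sub_one (hp2 : p ≠ 2)
    (hpR : (p : R) ∈ IsLocalRing.maximalIdeal R)
    (P : ValuationSubring Qbar) (hP : P.LiesOverPrime p) :
    ∃ σ₀ ∈ P.inertiaSubgroupIn ℚ, IsUnit (LinearMap.det (ρ.ρ σ₀) - 1) := by
  have hpp : p.Prime := Fact.out
  obtain ⟨σ, hσ, ζ, hζ, hne⟩ :=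
    Fermat.Agent.S56.Loc.CycloRamified.exists_mem_inertia_ne p hp2 P hP
  refine ⟨σ, hσ, ?_⟩
  set c : ℤ_[p] := ((cycloCharAdic p σ : ℤ_[p]ˣ) : ℤ_[p]) with hc
  set z : ℕ := c.appr 1 with hz
  have hcz : c - ((z : ℤ) : ℤ_[p]) ∈ Ideal.span {(p : ℤ_[p]) ^ 1} := by
    have := PadicInt.appr_spec 1 c
    simpa using this
  have h1 := det_sub_intCast_mem_pow S hpS hNS π ρ hfrob hpR σ (z : ℤ) 1 hcz
  rw [pow_one] at h1
  -- `z ≢ 1 mod p`
  have hz1 : ¬ (p : ℤ) ∣ ((z : ℤ) - 1) := by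
    intro hdvd
    apply hne
    have hζ' : ζ ^ p ^ 1 = 1 := by rw [pow_one]; exact hζ
    have h2 := cycloCharAdic_spec p σ hζ'
    have h3 : PadicInt.toZModPow 1 c = ((z : ℕ) : ZMod (p ^ 1)) := by
      have h4 : c - (z : ℤ_[p]) ∈ RingHom.ker (PadicInt.toZModPow (p := p) 1) := by
        rw [PadicInt.ker_toZModPow]
        simpa using hcz
      rw [RingHom.mem_ker, map_sub, sub_eq_zero, map_natCast] at h4
      exact h4
    rw [← hc, h3, pow_val_natCast_eq' hζ'] at h2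
    rw [h2]
    -- `ζ ^ z = ζ` since `z ≡ 1 mod p`
    have hmod : (z : ℤ) ≡ 1 [ZMOD (p : ℤ)] := (Int.modEq_iff_dvd.mpr hdvd).symm
    have hmod' : z ≡ 1 [MOD p] := by
      have := hmod
      exact_mod_cast this
    have e : z = z % p + p * (z / p) := (Nat.mod_add_div z p).symm
    have hmod'' : z % p = 1 := by
      have := hmod'
      unfold Nat.ModEq at this
      rw [this, Nat.mod_eq_of_lt hpp.one_lt]
    rw [e, pow_add, pow_mul, hζ, one_pow, mul_one, hmod'', pow_one]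
  -- Bezout
  have hcop : IsCoprime ((z : ℤ) - 1) (p : ℤ) := by
    have hprime : Prime (p : ℤ) := Nat.prime_iff_prime_int.mp hpp
    exact (hprime.coprime_iff_not_dvd.mpr hz1).symm
  obtain ⟨u, v, huv⟩ := hcop
  by_contra hnu
  have hmem : LinearMap.det (ρ.ρ σ) - 1 ∈ IsLocalRing.maximalIdeal R := by
    rw [IsLocalRing.mem_maximalIdeal]
    exact hnu
  have hz1R : ((z : ℤ) : R) - 1 ∈ IsLocalRing.maximalIdeal R := by
    have : ((z : ℤ) : R) - 1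
        = (LinearMap.det (ρ.ρ σ) - 1) - (LinearMap.det (ρ.ρ σ) - ((z : ℤ) : R)) := by ring
    rw [this]
    exact Ideal.sub_mem _ hmem h1
  have hone : (1 : R) ∈ IsLocalRing.maximalIdeal R := by
    have h5 : (u : R) * (((z : ℤ) : R) - 1) + (v : R) * (p : R) = 1 := by
      have := congrArg (fun t : ℤ => (t : R)) huv
      simpa using this
    rw [← h5]
    exact Ideal.add_mem _ (Ideal.mul_mem_left _ _ hz1R) (Ideal.mul_mem_left _ _ hpR)
  exact (Ideal.ne_top_iff_one _).mp (IsLocalRing.maximalIdeal.isMaximal R).ne_top hone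

end Main

section Datum

variable {p : ℕ} {N : ℕ} [NeZero N] {S : Finset ℕ}
  {𝒪 : Type} [CommRing 𝒪] [IsDomain 𝒪] [IsDiscreteValuationRing 𝒪]
  [IsAdicComplete (IsLocalRing.maximalIdeal 𝒪) 𝒪]
  {θ : CuspForm.heckeAlgebra N 2 (↑S : Set ℕ) →+* IsLocalRing.ResidueField 𝒪}
  {T : Type} [CommRing T] [IsLocalRing T] [IsNoetherianRing T]
  [IsAdicComplete (IsLocalRing.maximalIdeal T) T] [Algebra 𝒪 T] [IsLocalHom (algebraMap 𝒪 T)]
  [Module.Finite 𝒪 T] [Module.Free 𝒪 T]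

/-- **(σ₀) for a Hecke–Galois datum**, in the shape `hσ₀` of
`S33.Alg.Ordinary.isOrdinaryAt_of_old_new`. -/
theorem exists_mem_inertia_isUnit_det_sub_one_datum (hp : p.Prime) (hp2 : p ≠ 2)
    (hp𝒪 : (p : 𝒪) ∈ IsLocalRing.maximalIdeal 𝒪) (hpS : p ∈ S)
    (hNS : ∀ q : ℕ, q.Prime → q ∣ N → q ∈ S)
    (H : CuspForm.HeckeGaloisRepDatum N (↑S : Set ℕ) 𝒪 θ T) :
    ∀ P : ValuationSubring Qbar, P.LiesOverPrime p →
      ∃ σ₀ ∈ P.inertiaSubgroupIn ℚ, IsUnit (LinearMap.det (H.ρ.ρ σ₀) - 1) := by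
  intro P hP
  have : Fact p.Prime := ⟨hp⟩
  have hpT : (p : T) ∈ IsLocalRing.maximalIdeal T :=
    Fermat.Agent.S32.Carayol.FiniteLevel.natCast_mem_maximalIdeal_of_isLocalHom hp𝒪
  exact exists_mem_inertia_isUnit_det_sub_one S hpS hNS H.π H.ρ H.charpoly_frob hp2 hpT P hP

end Datum

end Fermat.Agent.S33.Asm.SigmaZero
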