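/-
S33 / TOP LEVEL, FAMILY FORM (helper15): **the frozen statement S33 from a family of ideals
`𝔞 : ℕ → Ideal T`** (the re-cut of `moonshots` row 61 §0: board #2812 helper27, #2820 helper29,
#2821/#2823 helper10 — Galois-annihilator ideals `𝔞_M`, no `res`, no `π'`, no quotient ring).

With `Ω(τ, σ') := (ρ τ - det ρ τ)(ρ σ' - 1)`:

* (σ₀) every `I_P`, `P ∣ p`, contains `σ₀` with `det ρ σ₀ - 1` a unit: `Asm/SigmaZero` (on main);
* (RED) `T` reduced: `G1.Reduced.isReduced_T H (Pet.Main.peterssonHyp N) hNS` (on main);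
* (FAM) `hpow : (p : T) ^ M ∈ 𝔞 M` (so `T ⧸ 𝔞 M` is FINITE), `hHopf` : Hopf orders on `V ⧸ I V` for every
  `I ⊇ 𝔞 M` of finite index  [tautological from the definition of `𝔞_M` + S19 at level `N/p`];
* (ORD) `LevelwiseOrd ρ p` : levelwise STEP 1 — Hopf orders on all levels above `I` (+ residually
  ordinary + (σ₀), inside the producer) `⇒ Ω(τ,σ') v ∈ I V`  [helper6 `Ord/Levelwise.omega_apply_mem`];
* (NEW) `c • Ω(τ,σ') = 0` for `c ∈ ⨅ M, 𝔞 M`  [(NEW-J) + transfer, helper27 `exists_oldIdeals`].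

Then every matrix entry `ω` of `Ω(σ₀,σ')` lies in `⨅ M, 𝔞 M` and is killed by it, so `ω² = 0`, `ω = 0`
(`Alg/Ordinary.eq_zero_of_entries_mem`), and (ALG) gives `IsOrdinaryAt`.

Exports:
* `finite_of_isTorsionBySet`, `finite_quotient_of_natCast_pow_mem` : `(p : T) ^ M ∈ I ⇒ Finite (T ⧸ I)`;
* `repr_mem_of_mem_smul_top'` ; `LevelwiseOrd` (the Prop);
* `isOrdinaryAt_of_family` : the reduction over an arbitrary reduced local ring;
* `isOrdinaryAt_of_family_datum` : for the datum `H`, with `hORD` still a hypothesis;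
* `levelwiseOrd_datum` : (ORD) for `H` from helper6's `Ord/Levelwise.omega_apply_mem` (on main);
* **`result_of_family`**, **`result_of_oldIdeals`** : the frozen S33 signature verbatim + ONLY
  `𝔞`, `hpow`, `hHopf`, `hNEW` (= the conclusion of helper27's `exists_oldIdeals`).
-/
import Mathlib
import Fermat.Prelude.Def_CuspForm_HeckeGaloisRepDatum
import Fermat.Prelude.Def_GaloisRep_LocalConditions
import Fermat.Agent.S19.Abs.FlatAt
import Fermat.Agent.S19.Base.Stability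
import Fermat.Agent.S33.Alg.Ordinary
import Fermat.Agent.S33.G1.Reduced
import Fermat.Agent.S33.Pet.Main
import Fermat.Agent.S33.Asm.SigmaZero
import Fermat.Agent.S33.Ord.Levelwise
import Fermat.Agent.S32.Carayol.Assembly

set_option autoImplicit false
set_option linter.unusedSectionVars false
set_option linter.unusedVariables false
set_option linter.style.haveILetI false

namespace Fermat.Agent.S33.Asm.Top

open GaloisRep Fermat.Agent.S33.Alg.Ordinary Fermat.Agent.S19.Abs Fermat.Agent.S19.Base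

local notation "Qbar" => AlgebraicClosure ℚ
local notation "Γ" => (AlgebraicClosure ℚ ≃ₐ[ℚ] AlgebraicClosure ℚ)

/-! ### Finiteness of `T ⧸ I` when `p ^ M ∈ I` -/

section Finite

/-- A finite module killed by an ideal of finite index is finite. -/
theorem finite_of_isTorsionBySet {R M : Type*} [CommRing R] [AddCommGroup M] [Module R M]
    [Module.Finite R M] (J : Ideal R) [Finite (R ⧸ J)]
    (hJ : ∀ r ∈ J, ∀ m : M, r • m = 0) : Finite M := by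
  have hJ' : Module.IsTorsionBySet R M (J : Set R) := by
    intro m r
    exact hJ r.1 r.2 m
  letI : Module (R ⧸ J) M := Module.IsTorsionBySet.module hJ'
  haveI : IsScalarTower R (R ⧸ J) M := Module.IsTorsionBySet.isScalarTower hJ'
  haveI : Module.Finite (R ⧸ J) M := Module.Finite.of_restrictScalars_finite R (R ⧸ J) M
  exact Module.finite_of_finite (R ⧸ J)

variable {𝒪 : Type} [CommRing 𝒪] [IsDomain 𝒪] [IsDiscreteValuationRing 𝒪]
  {T : Type} [CommRing T] [Algebra 𝒪 T] [Module.Finite 𝒪 T]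

/-- In a discrete valuation ring with finite residue field, nonzero principal ideals have finite
index. -/
theorem finite_quotient_span_of_ne_zero [Finite (IsLocalRing.ResidueField 𝒪)] {x : 𝒪}
    (hx : x ≠ 0) : Finite (𝒪 ⧸ Ideal.span {x}) := by
  obtain ⟨ϖ, hϖ⟩ := IsDiscreteValuationRing.exists_irreducible 𝒪
  have hne : Ideal.span {x} ≠ ⊥ := by
    rw [Ne, Ideal.span_singleton_eq_bot]; exact hx
  obtain ⟨n, hn⟩ := IsDiscreteValuationRing.ideal_eq_span_pow_irreducible hne hϖ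
  have hm : IsLocalRing.maximalIdeal 𝒪 = Ideal.span {ϖ} :=
    (IsDiscreteValuationRing.irreducible_iff_uniformizer ϖ).mp hϖ
  have hpow : Ideal.span {x} = IsLocalRing.maximalIdeal 𝒪 ^ n := by
    rw [hn, hm, Ideal.span_singleton_pow]
  rw [hpow]
  haveI : Finite (𝒪 ⧸ IsLocalRing.maximalIdeal 𝒪) :=
    (inferInstance : Finite (IsLocalRing.ResidueField 𝒪))
  exact Ideal.finite_quotient_pow (IsNoetherian.noetherian _) n

/-- **`(p : T) ^ M ∈ I ⇒ Finite (T ⧸ I)`** for `T` module-finite over a characteristic-zero discrete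
valuation ring with finite residue field. -/
theorem finite_quotient_of_natCast_pow_mem [Finite (IsLocalRing.ResidueField 𝒪)] [CharZero 𝒪]
    {p : ℕ} (hp : p ≠ 0) (I : Ideal T) (M : ℕ) (h : (p : T) ^ M ∈ I) : Finite (T ⧸ I) := by
  have hx : ((p : 𝒪) ^ M) ≠ 0 := pow_ne_zero _ (Nat.cast_ne_zero.mpr hp)
  haveI := finite_quotient_span_of_ne_zero hx
  refine finite_of_isTorsionBySet (R := 𝒪) (M := T ⧸ I) (Ideal.span {(p : 𝒪) ^ M}) ?_
  intro r hr m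
  obtain ⟨s, rfl⟩ := Ideal.mem_span_singleton'.mp hr
  obtain ⟨t, rfl⟩ := Ideal.Quotient.mk_surjective m
  rw [Algebra.smul_def, IsScalarTower.algebraMap_apply 𝒪 T (T ⧸ I), Ideal.Quotient.algebraMap_eq,
    ← map_mul, Ideal.Quotient.eq_zero_iff_mem, map_mul, map_pow, map_natCast, mul_assoc]
  exact I.mul_mem_left _ (I.mul_mem_right _ h)

end Finite

/-! ### Coordinates of elements of `I V` -/

/-- The coordinates of an element of `I V` lie in `I`. -/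
theorem repr_mem_of_mem_smul_top' {A V ι : Type*} [CommRing A] [AddCommGroup V] [Module A V]
    (b : Module.Basis ι A V) (I : Ideal A) {x : V}
    (hx : x ∈ I • (⊤ : Submodule A V)) (i : ι) : b.repr x i ∈ I := by
  refine Submodule.smul_induction_on hx (fun r hr m _ => ?_) (fun x y hx hy => ?_)
  · rw [map_smul, Finsupp.smul_apply, smul_eq_mul]
    exact I.mul_mem_right _ hr
  · rw [map_add, Finsupp.add_apply]
    exact I.add_mem hx hy

/-! ### The reduction over an arbitrary reduced local ring -/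

section General

variable {A : Type} [CommRing A] [IsLocalRing A] (ρ : GaloisRepAdic A)

/-- **Levelwise STEP 1** (the statement): if all levels `V ⧸ J V`, `J ⊇ I` of finite index, carry
Hopf orders, then `Ω(τ, σ') v ∈ I V` for `σ', τ` in an inertia group over `p`. -/
def LevelwiseOrd (p : ℕ) : Prop :=
  ∀ I : Ideal A, Finite (A ⧸ I) →
    (∀ J : Ideal A, I ≤ J → Finite (A ⧸ J) → HasHopfOrder p (levelAct ρ J)) →
    ∀ P : ValuationSubring Qbar, P.LiesOverPrime p →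
      ∀ σ' ∈ P.inertiaSubgroupIn ℚ, ∀ τ ∈ P.inertiaSubgroupIn ℚ, ∀ v : ρ.V,
        ((ρ.ρ τ - LinearMap.det (ρ.ρ τ) • (1 : Module.End A ρ.V)) * (ρ.ρ σ' - 1)) v ∈
          I • (⊤ : Submodule A ρ.V)

/-- **The ideal trick, family form.** -/
theorem isOrdinaryAt_of_family [IsReduced A] (p : ℕ) (𝔞 : ℕ → Ideal A)
    (hσ₀ : ∀ P : ValuationSubring Qbar, P.LiesOverPrime p →
      ∃ σ₀ ∈ P.inertiaSubgroupIn ℚ, IsUnit (LinearMap.det (ρ.ρ σ₀) - 1))
    (hfin : ∀ M, Finite (A ⧸ 𝔞 M))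
    (hHopf : ∀ M (I : Ideal A), 𝔞 M ≤ I → Finite (A ⧸ I) → HasHopfOrder p (levelAct ρ I))
    (hORD : LevelwiseOrd ρ p)
    (hNEW : ∀ c ∈ ⨅ M, 𝔞 M, ∀ P : ValuationSubring Qbar, P.LiesOverPrime p →
      ∀ τ ∈ P.inertiaSubgroupIn ℚ, ∀ σ' ∈ P.inertiaSubgroupIn ℚ,
        c • ((ρ.ρ τ - LinearMap.det (ρ.ρ τ) • (1 : Module.End A ρ.V)) * (ρ.ρ σ' - 1)) = 0) :
    ρ.IsOrdinaryAt p := by
  refine isOrdinaryAt_of_omega ρ p fun P hP => ?_
  obtain ⟨σ₀, hσ₀I, hu⟩ := hσ₀ P hP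
  refine ⟨σ₀, hσ₀I, hu, fun σ' hσ' => ?_⟩
  let b : Module.Basis (Fin 2) A ρ.V := Module.finBasisOfFinrankEq A ρ.V ρ.finrank_eq
  refine eq_zero_of_entries_mem b (⨅ M, 𝔞 M) _ (fun i j => ?_)
    (fun c hc => hNEW c hc P hP σ₀ hσ₀I σ' hσ')
  rw [Ideal.mem_iInf]
  intro M
  exact repr_mem_of_mem_smul_top' b (𝔞 M)
    (hORD (𝔞 M) (hfin M) (hHopf M) P hP σ' hσ' σ₀ hσ₀I (b j)) i

end General

/-! ### The Hecke–Galois datum -/

section Datum

variable {p : ℕ} {N : ℕ} [NeZero N] {S : Finset ℕ}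
  {𝒪 : Type} [CommRing 𝒪] [IsDomain 𝒪] [IsDiscreteValuationRing 𝒪]
  [IsAdicComplete (IsLocalRing.maximalIdeal 𝒪) 𝒪]
  {θ : CuspForm.heckeAlgebra N 2 (↑S : Set ℕ) →+* IsLocalRing.ResidueField 𝒪}
  {T : Type} [CommRing T] [IsLocalRing T] [IsNoetherianRing T]
  [IsAdicComplete (IsLocalRing.maximalIdeal T) T] [Algebra 𝒪 T] [IsLocalHom (algebraMap 𝒪 T)]
  [Module.Finite 𝒪 T] [Module.Free 𝒪 T]

/-- **Row 61 (re-cut), top level for the datum `H`**: (σ₀) and (RED) discharged, finiteness of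
`T ⧸ 𝔞 M` from `hpow`. -/
theorem isOrdinaryAt_of_family_datum
    [Finite (IsLocalRing.ResidueField 𝒪)] [CharZero 𝒪]
    (hp : p.Prime) (hp2 : p ≠ 2) (hp𝒪 : (p : 𝒪) ∈ IsLocalRing.maximalIdeal 𝒪) (hpS : p ∈ S)
    (hNS : ∀ q : ℕ, q.Prime → q ∣ N → q ∈ S)
    (H : CuspForm.HeckeGaloisRepDatum N (↑S : Set ℕ) 𝒪 θ T)
    (𝔞 : ℕ → Ideal T)
    (hpow : ∀ M, (p : T) ^ M ∈ 𝔞 M)
    (hHopf : ∀ M (I : Ideal T), 𝔞 M ≤ I → Finite (T ⧸ I) → HasHopfOrder p (levelAct H.ρ I))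
    (hORD : LevelwiseOrd H.ρ p)
    (hNEW : ∀ c ∈ ⨅ M, 𝔞 M, ∀ P : ValuationSubring Qbar, P.LiesOverPrime p →
      ∀ τ ∈ P.inertiaSubgroupIn ℚ, ∀ σ' ∈ P.inertiaSubgroupIn ℚ,
        c • ((H.ρ.ρ τ - LinearMap.det (H.ρ.ρ τ) • (1 : Module.End T H.ρ.V))
          * (H.ρ.ρ σ' - 1)) = 0) :
    H.ρ.IsOrdinaryAt p := by
  haveI : IsReduced T :=
    Fermat.Agent.S33.G1.Reduced.isReduced_T H (Fermat.Agent.S33.Pet.Main.peterssonHyp N) hNS
  exact isOrdinaryAt_of_family H.ρ p 𝔞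
    (SigmaZero.exists_mem_inertia_isUnit_det_sub_one_datum hp hp2 hp𝒪 hpS hNS H)
    (fun M => finite_quotient_of_natCast_pow_mem (𝒪 := 𝒪) hp.ne_zero (𝔞 M) M (hpow M))
    hHopf hORD hNEW

/-- **(ORD) for the datum `H`**: levelwise STEP 1 (helper6 `Ord/Levelwise.omega_apply_mem`) with
its side hypotheses discharged ((σ₀) at `primeLocalPlace p` from `Asm/SigmaZero`, finite residue
field). -/
theorem levelwiseOrd_datum
    [Finite (IsLocalRing.ResidueField 𝒪)]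
    (hp : p.Prime) (hp2 : p ≠ 2) (hp𝒪 : (p : 𝒪) ∈ IsLocalRing.maximalIdeal 𝒪) (hpS : p ∈ S)
    (hNS : ∀ q : ℕ, q.Prime → q ∣ N → q ∈ S)
    (H : CuspForm.HeckeGaloisRepDatum N (↑S : Set ℕ) 𝒪 θ T)
    (hres : (GaloisRepAdic.ofResidualGaloisRep H.ρ.residual).IsOrdinaryAt p) :
    LevelwiseOrd H.ρ p := by
  intro I hI hH P hP σ' hσ' τ hτ v
  have hpT : (p : T) ∈ IsLocalRing.maximalIdeal T :=
    Fermat.Agent.S32.Carayol.FiniteLevel.natCast_mem_maximalIdeal_of_isLocalHom hp𝒪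
  exact Fermat.Agent.S33.Ord.Levelwise.omega_apply_mem H.ρ (⟨p, hp⟩ : Nat.Primes) hp2 hpT
    (Fermat.Agent.S32.Carayol.Assembly.finite_residueField H) hres I hH
    (SigmaZero.exists_mem_inertia_isUnit_det_sub_one_datum hp hp2 hp𝒪 hpS hNS H _
      (Fermat.Agent.S56.Places.Dict.liesOverPrime_primeLocalPlace (⟨p, hp⟩ : Nat.Primes)))
    P hP hσ' hτ v

/-- **The frozen statement S33 from the family hypotheses** (FAM) `𝔞, hpow, hHopf`, (NEW) `hNEW`;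
(σ₀), (RED), (ORD) are discharged. -/
theorem result_of_family
    [Finite (IsLocalRing.ResidueField 𝒪)] [CharZero 𝒪]
    (hp : p.Prime) (hp2 : p ≠ 2) (hp𝒪 : (p : 𝒪) ∈ IsLocalRing.maximalIdeal 𝒪)
    (hN : p ∣ N ∧ ¬ p ^ 2 ∣ N)
    (hNS : ∀ q : ℕ, q.Prime → q ∣ N → q ∈ S)
    (H : CuspForm.HeckeGaloisRepDatum N (↑S : Set ℕ) 𝒪 θ T)
    (hres : (GaloisRepAdic.ofResidualGaloisRep H.ρ.residual).IsOrdinaryAt p)
    (𝔞 : ℕ → Ideal T)
    (hpow : ∀ M, (p : T) ^ M ∈ 𝔞 M)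
    (hHopf : ∀ M (I : Ideal T), 𝔞 M ≤ I → Finite (T ⧸ I) → HasHopfOrder p (levelAct H.ρ I))
    (hNEW : ∀ c ∈ ⨅ M, 𝔞 M, ∀ P : ValuationSubring Qbar, P.LiesOverPrime p →
      ∀ τ ∈ P.inertiaSubgroupIn ℚ, ∀ σ' ∈ P.inertiaSubgroupIn ℚ,
        c • ((H.ρ.ρ τ - LinearMap.det (H.ρ.ρ τ) • (1 : Module.End T H.ρ.V))
          * (H.ρ.ρ σ' - 1)) = 0) :
    H.ρ.IsOrdinaryAt p :=
  isOrdinaryAt_of_family_datum hp hp2 hp𝒪 (hNS p hp hN.1) hNS H 𝔞 hpow hHopf
    (levelwiseOrd_datum hp hp2 hp𝒪 (hNS p hp hN.1) hNS H hres) hNEW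

/-- **The frozen statement S33 from the conclusion of `exists_oldIdeals`** (helper27, TOP-OLDIDEAL),
existential form. -/
theorem result_of_oldIdeals
    [Finite (IsLocalRing.ResidueField 𝒪)] [CharZero 𝒪]
    (hp : p.Prime) (hp2 : p ≠ 2) (hp𝒪 : (p : 𝒪) ∈ IsLocalRing.maximalIdeal 𝒪)
    (hN : p ∣ N ∧ ¬ p ^ 2 ∣ N)
    (hNS : ∀ q : ℕ, q.Prime → q ∣ N → q ∈ S)
    (H : CuspForm.HeckeGaloisRepDatum N (↑S : Set ℕ) 𝒪 θ T)
    (hres : (GaloisRepAdic.ofResidualGaloisRep H.ρ.residual).IsOrdinaryAt p)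
    (h : ∃ 𝔞 : ℕ → Ideal T, (∀ M, (p : T) ^ M ∈ 𝔞 M) ∧
      (∀ M (I : Ideal T), 𝔞 M ≤ I → Finite (T ⧸ I) → HasHopfOrder p (levelAct H.ρ I)) ∧
      ∀ c ∈ ⨅ M, 𝔞 M, ∀ P : ValuationSubring Qbar, P.LiesOverPrime p →
        ∀ τ ∈ P.inertiaSubgroupIn ℚ, ∀ σ' ∈ P.inertiaSubgroupIn ℚ,
          c • ((H.ρ.ρ τ - LinearMap.det (H.ρ.ρ τ) • (1 : Module.End T H.ρ.V))
            * (H.ρ.ρ σ' - 1)) = 0) :
    H.ρ.IsOrdinaryAt p := by
  obtain ⟨𝔞, hpow, hHopf, hNEW⟩ := h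
  exact result_of_family hp hp2 hp𝒪 hN hNS H hres 𝔞 hpow hHopf hNEW

end Datum

end Fermat.Agent.S33.Asm.Top
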