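/-
S33 / TOP LEVEL, plugged (helper15): **the frozen statement S33 from the geometric input alone** —
`NewJ N N' p k` (helper27 `New/Transfer`), resp. `NewRootInertia N' p c` (helper11 `New/NewJOfRoot`,
THE single target of STEP L).

Chain (levelwise route, everything else on main):
`Asm/Top.result_of_oldIdeals` ((σ₀) `Asm/SigmaZero`, (RED) `G1/Reduced` + `Pet/Main`, (ORD) helper6
`Ord/Levelwise`) ∘ `New/Transfer.exists_oldIdeals` ((OLD′) + (NEW′), helper27) ∘ S19 at level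
`N' = N / p` (`S19.result`, `p ∤ N'`).

* `result_of_newJ` : frozen S33 signature + `N'`, `¬ p ∣ N'`, `k ≠ 0`, `NewJ N N' p k`;
* `newJ_of_newRootInertia` : `NewRootInertia N' p c → NewJ (N' * p) N' p (p ^ c)`;
* **`result_of_newRootInertia`** : frozen S33 signature + `∀ N'`, `N = N' * p → ¬ p ∣ N' →
  ∃ c, NewRootInertia N' p c`.
-/
import Mathlib
import Fermat.Agent.S19
import Fermat.Agent.S19.Base.OfS19
import Fermat.Agent.S33.Asm.Top
import Fermat.Agent.S33.New.Transfer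
import Fermat.Agent.S33.New.NewJOfRoot

set_option autoImplicit false
set_option linter.unusedSectionVars false
set_option linter.unusedVariables false
set_option linter.style.haveILetI false

namespace Fermat.Agent.S33.Asm.TopNewJ

open GaloisRep Fermat.Agent.S33.Alg.Ordinary Fermat.Agent.S19.Abs Fermat.Agent.S19.Base
  Fermat.Agent.S33.New.Transfer Fermat.Agent.S33.New.NewJOfRoot

local notation "Qbar" => AlgebraicClosure ℚ
local notation "Γ" => (AlgebraicClosure ℚ ≃ₐ[ℚ] AlgebraicClosure ℚ)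

variable {p : ℕ} {N : ℕ} [NeZero N] {S : Finset ℕ}
  {𝒪 : Type} [CommRing 𝒪] [IsDomain 𝒪] [IsDiscreteValuationRing 𝒪]
  [IsAdicComplete (IsLocalRing.maximalIdeal 𝒪) 𝒪]
  {θ : CuspForm.heckeAlgebra N 2 (↑S : Set ℕ) →+* IsLocalRing.ResidueField 𝒪}
  {T : Type} [CommRing T] [IsLocalRing T] [IsNoetherianRing T]
  [IsAdicComplete (IsLocalRing.maximalIdeal T) T] [Algebra 𝒪 T] [IsLocalHom (algebraMap 𝒪 T)]
  [Module.Finite 𝒪 T] [Module.Free 𝒪 T]

/-- **The frozen statement S33 from `NewJ N N' p k`** (`p ∤ N'`, `k ≠ 0`). -/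
theorem result_of_newJ
    [Finite (IsLocalRing.ResidueField 𝒪)] [CharZero 𝒪]
    (hp : p.Prime) (hp2 : p ≠ 2) (hp𝒪 : (p : 𝒪) ∈ IsLocalRing.maximalIdeal 𝒪)
    (hN : p ∣ N ∧ ¬ p ^ 2 ∣ N)
    (hNS : ∀ q : ℕ, q.Prime → q ∣ N → q ∈ S)
    (H : CuspForm.HeckeGaloisRepDatum N (↑S : Set ℕ) 𝒪 θ T)
    (hres : (GaloisRepAdic.ofResidualGaloisRep H.ρ.residual).IsOrdinaryAt p)
    (N' : ℕ) [NeZero N'] (hpN' : ¬ p ∣ N') {k : ℤ} (hk : k ≠ 0) (hJ : NewJ N N' p k) :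
    H.ρ.IsOrdinaryAt p := by
  have hpS : p ∈ S := hNS p hp hN.1
  haveI : Fact p.Prime := ⟨hp⟩
  have hS19 : ∀ j : ℕ, HasHopfOrder p (torsAct N' p j) := fun j =>
    Fermat.Agent.S19.Base.hasHopfOrder_tors_of_s19 N' p j (Fermat.Agent.S19.result N' p hpN' j)
  obtain ⟨𝔞, hpow, hHopf, hNEW⟩ :=
    exists_oldIdeals H hp hp2 hp𝒪 hpS hNS N' hS19 hk hJ
  refine Top.result_of_family hp hp2 hp𝒪 hN hNS H hres 𝔞 (fun M => ?_) hHopf
    (fun c hc P hP τ hτ σ' hσ' => hNEW P hP τ hτ σ' hσ' c hc)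
  have := hpow M
  rwa [Nat.cast_pow] at this

/-- `NewRootInertia N' p c` gives `NewJ (N' * p) N' p (p ^ c)`. -/
theorem newJ_of_newRootInertia' (N' p : ℕ) [NeZero N'] [NeZero p] {c : ℕ}
    (h : NewRootInertia N' p c) : NewJ (N' * p) N' p (((p ^ c : ℕ) : ℤ)) :=
  fun m => newJ_of_newRootInertia N' p h m

/-- **The frozen statement S33 from the single target of STEP L.** -/
theorem result_of_newRootInertia
    [Finite (IsLocalRing.ResidueField 𝒪)] [CharZero 𝒪]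
    (hp : p.Prime) (hp2 : p ≠ 2) (hp𝒪 : (p : 𝒪) ∈ IsLocalRing.maximalIdeal 𝒪)
    (hN : p ∣ N ∧ ¬ p ^ 2 ∣ N)
    (hNS : ∀ q : ℕ, q.Prime → q ∣ N → q ∈ S)
    (H : CuspForm.HeckeGaloisRepDatum N (↑S : Set ℕ) 𝒪 θ T)
    (hres : (GaloisRepAdic.ofResidualGaloisRep H.ρ.residual).IsOrdinaryAt p)
    (hL : ∀ (N' : ℕ) [NeZero N'] [NeZero p], N = N' * p → ¬ p ∣ N' →
      ∃ c : ℕ, NewRootInertia N' p c) :
    H.ρ.IsOrdinaryAt p := by
  obtain ⟨N', hN'⟩ : ∃ N', N = N' * p := by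
    obtain ⟨N', hN'⟩ := hN.1
    exact ⟨N', by rw [hN', mul_comm]⟩
  haveI : NeZero p := ⟨hp.ne_zero⟩
  haveI : NeZero N' := ⟨by
    rintro rfl
    exact NeZero.ne N (by rw [hN', zero_mul])⟩
  have hpN' : ¬ p ∣ N' := by
    rintro ⟨d, rfl⟩
    exact hN.2 ⟨d, by rw [hN']; ring⟩
  obtain ⟨c, hc⟩ := hL N' hN' hpN'
  subst hN'
  have hk : (((p ^ c : ℕ) : ℤ)) ≠ 0 := by
    exact_mod_cast pow_ne_zero c hp.ne_zero
  exact result_of_newJ hp hp2 hp𝒪 hN hNS H hres N' hpN' hk (newJ_of_newRootInertia' N' p hc)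

end Fermat.Agent.S33.Asm.TopNewJ
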