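/-
S33 / TOP LEVEL modulo (K) (helper15): **the frozen statement S33 from the single provider
`Contracts.KProv`** (STEP K = Kummer integrality at the closed points of the two charts of a good
level), every other input being on main:

`Asm/TopNewJ.result_of_newRootInertia` (top level: (σ₀), (RED), (ORD), (OLD′)+(NEW′), S19 at level
`N / p`) ∘ `L/Main.newRootInertia_of_providers` (helper12: STEP L assembled from the three provider
contracts of `L/Contracts`) with (B) := `L/BOutGood.bProv` (helper10) and (G) := `G/GProv.gProv`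
(helper23).

* `newRootInertia_of_kProv` : `NewRootInertia N' p 0` from `∀ A k, KProv N' p A k`;
* **`result_of_kProv`** : frozen S33 signature + `hKp` ⇒ `H.ρ.IsOrdinaryAt p`.
  (`hKp` is only asked at the level `N'` with `N = N' * p`, `p ∤ N'`, at places `A ∣ p`.)
-/
import Mathlib
import Fermat.Agent.S33.Asm.TopNewJ
import Fermat.Agent.S33.L.Main
import Fermat.Agent.S33.L.BOutGood
import Fermat.Agent.S33.G.GProv

set_option autoImplicit false
set_option linter.unusedSectionVars false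
set_option linter.unusedVariables false
set_option linter.style.haveILetI false

namespace Fermat.Agent.S33.Asm.TopProviders

local notation "Qbar" => AlgebraicClosure ℚ
local notation "Γ" => (AlgebraicClosure ℚ ≃ₐ[ℚ] AlgebraicClosure ℚ)

/-- **The single target of STEP L from (K) alone**: (B) and (G) are on main. -/
theorem newRootInertia_of_kProv (N' p : ℕ) [NeZero N'] [NeZero p] [Fact p.Prime]
    (hpN' : ¬ p ∣ N')
    (hKp : ∀ (A : ValuationSubring Qbar), A.LiesOverPrime p → ∀ k : ℕ,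
      Fermat.Agent.S33.L.Contracts.KProv N' p A k) :
    Fermat.Agent.S33.New.NewJOfRoot.NewRootInertia N' p 0 :=
  Fermat.Agent.S33.L.Main.newRootInertia_of_providers N' p hpN'
    (fun A hA σ' hσ' k => Fermat.Agent.S33.L.BOutGood.bProv N' p hpN' A hA k hσ')
    hKp
    (fun A hA => Fermat.Agent.S33.G.GProv.gProv N' p hpN' A hA)

variable {p : ℕ} {N : ℕ} [NeZero N] {S : Finset ℕ}
  {𝒪 : Type} [CommRing 𝒪] [IsDomain 𝒪] [IsDiscreteValuationRing 𝒪]
  [IsAdicComplete (IsLocalRing.maximalIdeal 𝒪) 𝒪]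
  {θ : CuspForm.heckeAlgebra N 2 (↑S : Set ℕ) →+* IsLocalRing.ResidueField 𝒪}
  {T : Type} [CommRing T] [IsLocalRing T] [IsNoetherianRing T]
  [IsAdicComplete (IsLocalRing.maximalIdeal T) T] [Algebra 𝒪 T] [IsLocalHom (algebraMap 𝒪 T)]
  [Module.Finite 𝒪 T] [Module.Free 𝒪 T]

/-- **The frozen statement S33 from (K) alone**: `hKp` = `Contracts.KProv N' p A k` at the level
`N' = N / p` (`p ∤ N'`), for every place `A ∣ p` of `Q̄` and every `k`. -/
theorem result_of_kProv
    [Finite (IsLocalRing.ResidueField 𝒪)] [CharZero 𝒪]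
    (hp : p.Prime) (hp2 : p ≠ 2) (hp𝒪 : (p : 𝒪) ∈ IsLocalRing.maximalIdeal 𝒪)
    (hN : p ∣ N ∧ ¬ p ^ 2 ∣ N)
    (hNS : ∀ q : ℕ, q.Prime → q ∣ N → q ∈ S)
    (H : CuspForm.HeckeGaloisRepDatum N (↑S : Set ℕ) 𝒪 θ T)
    (hres : (GaloisRepAdic.ofResidualGaloisRep H.ρ.residual).IsOrdinaryAt p)
    (hKp : ∀ (N' : ℕ) [NeZero N'] [Fact p.Prime], N = N' * p → ¬ p ∣ N' →
      ∀ (A : ValuationSubring Qbar), A.LiesOverPrime p → ∀ k : ℕ,
        Fermat.Agent.S33.L.Contracts.KProv N' p A k) :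
    H.ρ.IsOrdinaryAt p :=
  haveI : Fact p.Prime := ⟨hp⟩
  Fermat.Agent.S33.Asm.TopNewJ.result_of_newRootInertia hp hp2 hp𝒪 hN hNS H hres
    (fun N' _ _ hNN' hpN' =>
      ⟨0, newRootInertia_of_kProv N' p hpN' (fun A hA k => hKp N' hNN' hpN' A hA k)⟩)

end Fermat.Agent.S33.Asm.TopProviders
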