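/-
S33 / top level (helper29): **the ideal trick for a FAMILY of ideals.**

Variant of `Alg.Ordinary.isOrdinaryAt_of_old_new` (helper15) in which the single ideal `𝔞` is replaced
by a family `𝔞 M` (`M : ℕ`, in the application the ideal of matrix coefficients of `ρ(b)`, `b` in the
annihilator of `J₀(N/p)[p^M]` in `ℤ[Γ]`): the entries of `Ω` lie in every `𝔞 M` ((OLD), one finite
local quotient `A ⧸ 𝔞 M` at a time), and every `t ∈ ⨅ M, 𝔞 M` kills `Ω` ((NEW)).  So the intersection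
`⨅ M, 𝔞 M` is never used as a quotient: no Chevalley lemma, no completeness of a quotient.

* `entries_mem_of_isOrdinaryAt_baseChange` : (OLD) for one local quotient gives the entries of `Ω`;
* `isOrdinaryAt_of_entries_family` : the top level from entries;
* `isOrdinaryAt_of_old_new_family` : the top level from ordinarity of the base changes.
-/
import Mathlib
import Fermat.Agent.S33.Alg.Ordinary

set_option autoImplicit false
set_option linter.unusedSectionVars false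
set_option linter.style.haveILetI false

noncomputable section

namespace Fermat.Agent.S33.Asm.Family

open Module Fermat.Agent.S33.Alg.Ordinary

variable {A : Type} [CommRing A] [IsLocalRing A] (ρ : GaloisRepAdic A)

local notation "GQ" => (AlgebraicClosure ℚ ≃ₐ[ℚ] AlgebraicClosure ℚ)

/-- The basis of `ρ.V` used to speak of the entries of `Ω`. -/
def stdBasis : Module.Basis (Fin 2) A ρ.V := Module.finBasisOfFinrankEq A ρ.V ρ.finrank_eq

/-- **(OLD) for one quotient.**  If the base change of `ρ` along a local homomorphism `φ` with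
`ker φ ≤ 𝔞` is ordinary at `p`, then all entries of `Ω(τ, σ')`, `τ, σ' ∈ I_P`, lie in `𝔞`. -/
theorem entries_mem_of_isOrdinaryAt_baseChange {p : ℕ} (𝔞 : Ideal A)
    {B : Type} [CommRing B] [IsLocalRing B] (φ : A →+* B) (hφ : IsLocalHom φ)
    (hker : RingHom.ker φ ≤ 𝔞) (hold : (ρ.baseChangeAlong φ hφ).IsOrdinaryAt p)
    {ι : Type} (b : Module.Basis ι A ρ.V)
    (P : ValuationSubring (AlgebraicClosure ℚ)) (hP : P.LiesOverPrime p) {τ σ' : GQ}
    (hτ : τ ∈ P.inertiaSubgroupIn ℚ) (hσ' : σ' ∈ P.inertiaSubgroupIn ℚ) (i j : ι) :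
    b.repr (Omega ρ τ σ' (b j)) i ∈ 𝔞 := by
  letI : Algebra A B := φ.toAlgebra
  have h0 : (Omega ρ τ σ').baseChange B = 0 := by
    rw [← Omega_baseChangeAlong ρ φ hφ]
    exact omega_eq_zero_of_isOrdinaryAt _ hold P hP hτ hσ'
  exact hker (repr_mem_ker_of_baseChange_eq_zero b _ h0 i j)

/-- **Top level, family form, from entries.** -/
theorem isOrdinaryAt_of_entries_family [IsReduced A] (p : ℕ) {κ : Type} (𝔞 : κ → Ideal A)
    {ι : Type} (b : Module.Basis ι A ρ.V)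
    (hσ₀ : ∀ P : ValuationSubring (AlgebraicClosure ℚ), P.LiesOverPrime p →
      ∃ σ₀ ∈ P.inertiaSubgroupIn ℚ, IsUnit (LinearMap.det (ρ.ρ σ₀) - 1))
    (hold : ∀ M : κ, ∀ P : ValuationSubring (AlgebraicClosure ℚ), P.LiesOverPrime p →
      ∀ τ ∈ P.inertiaSubgroupIn ℚ, ∀ σ' ∈ P.inertiaSubgroupIn ℚ, ∀ i j : ι,
        b.repr (Omega ρ τ σ' (b j)) i ∈ 𝔞 M)
    (hnew : ∀ P : ValuationSubring (AlgebraicClosure ℚ), P.LiesOverPrime p →
      ∀ τ ∈ P.inertiaSubgroupIn ℚ, ∀ σ' ∈ P.inertiaSubgroupIn ℚ, ∀ t ∈ ⨅ M, 𝔞 M,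
        t • Omega ρ τ σ' = 0) :
    ρ.IsOrdinaryAt p := by
  refine isOrdinaryAt_of_omega ρ p fun P hP => ?_
  obtain ⟨σ₀, hσ₀I, hu⟩ := hσ₀ P hP
  refine ⟨σ₀, hσ₀I, hu, fun σ' hσ' => ?_⟩
  refine eq_zero_of_entries_mem b (⨅ M, 𝔞 M) _ (fun i j => ?_) (hnew P hP σ₀ hσ₀I σ' hσ')
  rw [Ideal.mem_iInf]
  exact fun M => hold M P hP σ₀ hσ₀I σ' hσ' i j

/-- **Top level, family form.**  `A` reduced and local, `𝔞 M` a family of ideals.  (OLD): for every `M`
either `𝔞 M = ⊤` or the base change of `ρ` along some local homomorphism with kernel `⊆ 𝔞 M` (e.g.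
`A → A ⧸ 𝔞 M`) is ordinary at `p`; (NEW): `(⨅ M, 𝔞 M) · Ω = 0` on inertia; and an inertia element with
`det − 1` a unit at every place over `p`.  Then `ρ` is ordinary at `p`. -/
theorem isOrdinaryAt_of_old_new_family [IsReduced A] (p : ℕ) {κ : Type} (𝔞 : κ → Ideal A)
    (hσ₀ : ∀ P : ValuationSubring (AlgebraicClosure ℚ), P.LiesOverPrime p →
      ∃ σ₀ ∈ P.inertiaSubgroupIn ℚ, IsUnit (LinearMap.det (ρ.ρ σ₀) - 1))
    (hold : ∀ M : κ, 𝔞 M = ⊤ ∨ ∃ (B : Type) (_ : CommRing B) (_ : IsLocalRing B) (φ : A →+* B)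
      (hφ : IsLocalHom φ), RingHom.ker φ ≤ 𝔞 M ∧ (ρ.baseChangeAlong φ hφ).IsOrdinaryAt p)
    (hnew : ∀ P : ValuationSubring (AlgebraicClosure ℚ), P.LiesOverPrime p →
      ∀ τ ∈ P.inertiaSubgroupIn ℚ, ∀ σ' ∈ P.inertiaSubgroupIn ℚ, ∀ t ∈ ⨅ M, 𝔞 M,
        t • Omega ρ τ σ' = 0) :
    ρ.IsOrdinaryAt p := by
  refine isOrdinaryAt_of_entries_family ρ p 𝔞 (stdBasis ρ) hσ₀ ?_ hnew
  intro M P hP τ hτ σ' hσ' i j
  rcases hold M with h | ⟨B, _, _, φ, hφ, hker, hord⟩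
  · rw [h]
    exact Submodule.mem_top
  · exact entries_mem_of_isOrdinaryAt_baseChange ρ (𝔞 M) φ hφ hker hord (stdBasis ρ) P hP hτ hσ' i j

/-- The quotient form of (OLD): for `𝔞 M ≠ ⊤` the ring `A ⧸ 𝔞 M` is local, the quotient map is a
local homomorphism, and its kernel is `𝔞 M`. -/
theorem old_of_quotient {p : ℕ} (𝔞 : Ideal A)
    (h : ∀ (_ : 𝔞 ≠ ⊤),
      haveI : Nontrivial (A ⧸ 𝔞) := Ideal.Quotient.nontrivial_iff.mpr ‹_›
      haveI : IsLocalRing (A ⧸ 𝔞) :=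
        IsLocalRing.of_surjective' (Ideal.Quotient.mk 𝔞) Ideal.Quotient.mk_surjective
      ∃ hφ : IsLocalHom (Ideal.Quotient.mk 𝔞),
        (ρ.baseChangeAlong (Ideal.Quotient.mk 𝔞) hφ).IsOrdinaryAt p) :
    𝔞 = ⊤ ∨ ∃ (B : Type) (_ : CommRing B) (_ : IsLocalRing B) (φ : A →+* B)
      (hφ : IsLocalHom φ), RingHom.ker φ ≤ 𝔞 ∧ (ρ.baseChangeAlong φ hφ).IsOrdinaryAt p := by
  by_cases h𝔞 : 𝔞 = ⊤
  · exact Or.inl h𝔞
  · haveI : Nontrivial (A ⧸ 𝔞) := Ideal.Quotient.nontrivial_iff.mpr h𝔞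
    haveI : IsLocalRing (A ⧸ 𝔞) :=
      IsLocalRing.of_surjective' (Ideal.Quotient.mk 𝔞) Ideal.Quotient.mk_surjective
    obtain ⟨hφ, hord⟩ := h h𝔞
    exact Or.inr ⟨A ⧸ 𝔞, inferInstance, inferInstance, Ideal.Quotient.mk 𝔞, hφ,
      le_of_eq Ideal.mk_ker, hord⟩

end Fermat.Agent.S33.Asm.Family
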