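/-
S33 / TOP LEVEL (helper10): THE FROZEN STATEMENT S33 FROM THE NAMED HYPOTHESES OF `moonshots` ROW 61.

`Ω(τ, σ') := (ρ τ - det ρ τ)(ρ σ' - 1) ∈ End_T V` for `σ', τ ∈ I_P`, `P | p`.

* `exists_inertia_det_sub_one_isUnit` (0b) : `p` odd, `det ρ` cyclotomic ⟹ for every `P | p` there is
  `σ₀ ∈ I_P` with `det ρ σ₀ - 1` a unit (SO-RAM `S56/Loc/CycloRamified`).
* `eq_zero_of_ideal` (RED, the ideal trick) : `A` reduced, `Ω v ∈ 𝔞 V` for all `v` and `t • Ω = 0`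
  for all `t ∈ 𝔞`  ⟹  `Ω = 0`.
* `isOrdinaryAt_of_ideal` : (ALG) + the ideal trick.
* **`result_of_hyps`** : the frozen statement S33 from
    `hdet : H.ρ.DetIsCyclotomic p`                                   (0a),
    `hred : IsReduced T`                                              (RED) = (G1),
    an ideal `𝔞` of `T` with
    `hOLD : Ω(τ,σ') v ∈ 𝔞 • ⊤`   (σ', τ ∈ I_P, v ∈ V)                 (OLD) = STEP 1 over `T/𝔞`,
    `hNEW : t • Ω(τ,σ') = 0`     (t ∈ 𝔞, σ', τ ∈ I_P)                 (NEW) = (NEW-J) + transfer.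
  Only `τ = σ₀` (one element of `I_P` with `det ρ σ₀ - 1` a unit, provided by (0b)) is used, see
  `result_of_hyps'` for the weakest form.
-/
import Mathlib
import Fermat.Prelude.Def_CuspForm_HeckeGaloisRepDatum
import Fermat.Prelude.Def_GaloisRep_LocalConditions
import Fermat.Agent.S33.Alg
import Fermat.Agent.S56.Loc.CycloRamified
import Fermat.Agent.N4.FrobDensity.CycloAdic

set_option autoImplicit false
set_option linter.unusedSectionVars false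

namespace Fermat.Agent.S33.Asm.Final

open Module Fermat.Agent.S33.Alg

local notation "Qbar" => AlgebraicClosure ℚ
local notation "Γ" => (AlgebraicClosure ℚ ≃ₐ[ℚ] AlgebraicClosure ℚ)

/-! ### (0b): an inertia element on which the determinant is not `1` residually -/

section Sigma

variable {A : Type} [CommRing A] [IsLocalRing A] (ρ : GaloisRepAdic A) {p : ℕ} [Fact p.Prime]

theorem exists_inertia_det_sub_one_isUnit (hp2 : p ≠ 2) (hdet : ρ.DetIsCyclotomic p)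
    (P : ValuationSubring Qbar) (hP : P.LiesOverPrime p) :
    ∃ σ₀ ∈ P.inertiaSubgroupIn ℚ, IsUnit (LinearMap.det (ρ.ρ σ₀) - 1) := by
  obtain ⟨σ, hσ, h⟩ :=
    Fermat.Agent.S56.Loc.CycloRamified.exists_mem_inertia_natCast_ne_one p hp2 P hP
  refine ⟨σ, hσ, ?_⟩
  by_contra hnu
  have hmem : LinearMap.det (ρ.ρ σ) - 1 ∈ IsLocalRing.maximalIdeal A :=
    (IsLocalRing.mem_maximalIdeal _).2 hnu
  obtain ⟨a, ha⟩ : ∃ a : ℕ, ∀ μ : Qbar, μ ^ p ^ 1 = 1 → σ μ = μ ^ a :=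
    ⟨_, fun μ hμ => Fermat.Agent.N4.FrobDensity.cycloCharAdic_spec p σ hμ⟩
  have h1 := hdet.2 1 σ a ha
  have hp𝔪 : Ideal.span {(((p ^ 1 : ℕ)) : A)} ≤ IsLocalRing.maximalIdeal A := by
    rw [Ideal.span_singleton_le_iff_mem, pow_one]
    exact hdet.1
  have h2 : ((a : A) - 1) ∈ IsLocalRing.maximalIdeal A := by
    have : (a : A) - 1 = (LinearMap.det (ρ.ρ σ) - 1) - (LinearMap.det (ρ.ρ σ) - (a : A)) := by
      ring
    rw [this]
    exact Ideal.sub_mem _ hmem (hp𝔪 h1)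
  have hpk : ((p : ℕ) : IsLocalRing.ResidueField A) = 0 := by
    have := (IsLocalRing.residue_eq_zero_iff (p : A)).mpr hdet.1
    rwa [map_natCast] at this
  refine h (IsLocalRing.ResidueField A) hpk a ha ?_
  have := (IsLocalRing.residue_eq_zero_iff ((a : A) - 1)).mpr h2
  rw [map_sub, map_one, map_natCast, sub_eq_zero] at this
  exact this

end Sigma

/-! ### (RED): the ideal trick -/

section Ideal

variable {A V : Type} [CommRing A] [AddCommGroup V] [Module A V] [Module.Free A V]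

/-- the coordinates of an element of `𝔞 V` lie in `𝔞` -/
theorem repr_mem_of_mem_smul_top {ι : Type} (b : Module.Basis ι A V) (𝔞 : Ideal A) {x : V}
    (hx : x ∈ 𝔞 • (⊤ : Submodule A V)) (i : ι) : b.repr x i ∈ 𝔞 := by
  refine Submodule.smul_induction_on hx (fun r hr m _ => ?_) (fun x y hx hy => ?_)
  · rw [map_smul, Finsupp.smul_apply, smul_eq_mul]
    exact 𝔞.mul_mem_right _ hr
  · rw [map_add, Finsupp.add_apply]
    exact 𝔞.add_mem hx hy

/-- **The ideal trick**: over a reduced ring, an endomorphism with values in `𝔞 V` and killed by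
`𝔞` is zero. -/
theorem eq_zero_of_ideal [IsReduced A] (𝔞 : Ideal A) (Ω : Module.End A V)
    (h1 : ∀ v, Ω v ∈ 𝔞 • (⊤ : Submodule A V)) (h2 : ∀ t ∈ 𝔞, t • Ω = 0) : Ω = 0 := by
  apply LinearMap.ext
  intro v
  let b := Module.Free.chooseBasis A V
  have hrepr : b.repr (Ω v) = 0 := by
    ext i
    have hc := repr_mem_of_mem_smul_top b 𝔞 (h1 v) i
    have h0 : b.repr (Ω v) i * b.repr (Ω v) i = 0 := by
      have := LinearMap.congr_fun (h2 _ hc) v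
      rw [LinearMap.smul_apply, LinearMap.zero_apply] at this
      have h3 := congrArg (fun y => b.repr y i) this
      simpa using h3
    have hnil : IsNilpotent (b.repr (Ω v) i) := ⟨2, by rw [pow_two]; exact h0⟩
    rw [Finsupp.zero_apply]
    exact hnil.eq_zero
  rw [LinearMap.zero_apply]
  exact b.repr.map_eq_zero_iff.1 hrepr

end Ideal

/-! ### The ordinary condition from (OLD) + (NEW) + (RED) -/

section Ord

variable {A : Type} [CommRing A] [IsLocalRing A] (ρ : GaloisRepAdic A) (p : ℕ)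

theorem isOrdinaryAt_of_ideal [IsReduced A] (𝔞 : Ideal A)
    (h : ∀ P : ValuationSubring Qbar, P.LiesOverPrime p →
      ∃ σ₀ ∈ P.inertiaSubgroupIn ℚ, IsUnit (LinearMap.det (ρ.ρ σ₀) - 1) ∧
        ∀ σ' ∈ P.inertiaSubgroupIn ℚ,
          (∀ v, ((ρ.ρ σ₀ - LinearMap.det (ρ.ρ σ₀) • (1 : Module.End A ρ.V)) * (ρ.ρ σ' - 1)) v ∈
            𝔞 • (⊤ : Submodule A ρ.V)) ∧
          ∀ t ∈ 𝔞, t • ((ρ.ρ σ₀ - LinearMap.det (ρ.ρ σ₀) • (1 : Module.End A ρ.V)) *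
            (ρ.ρ σ' - 1)) = 0) :
    ρ.IsOrdinaryAt p := by
  refine isOrdinaryAt_of_forall_omega ρ p fun P hP => ?_
  obtain ⟨σ₀, hσ₀, hu, hΩ⟩ := h P hP
  exact ⟨σ₀, hσ₀, hu, fun σ' hσ' => eq_zero_of_ideal 𝔞 _ (hΩ σ' hσ').1 (hΩ σ' hσ').2⟩

end Ord

/-! ### The frozen statement from the named hypotheses -/

section Frozen

variable {p : ℕ} {N : ℕ} [NeZero N] {S : Finset ℕ}
  {𝒪 : Type} [CommRing 𝒪] [IsDomain 𝒪] [IsDiscreteValuationRing 𝒪]
  [IsAdicComplete (IsLocalRing.maximalIdeal 𝒪) 𝒪]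
  {θ : CuspForm.heckeAlgebra N 2 (↑S : Set ℕ) →+* IsLocalRing.ResidueField 𝒪}
  {T : Type} [CommRing T] [IsLocalRing T] [IsNoetherianRing T]
  [IsAdicComplete (IsLocalRing.maximalIdeal T) T] [Algebra 𝒪 T] [IsLocalHom (algebraMap 𝒪 T)]
  [Module.Finite 𝒪 T] [Module.Free 𝒪 T]

/-- **S33 from the named hypotheses, weakest form**: for every `P | p` ONE `σ₀ ∈ I_P` with
`det ρ σ₀ - 1` a unit, and (OLD), (NEW) for `τ = σ₀` only. -/
theorem result_of_hyps' (H : CuspForm.HeckeGaloisRepDatum N (↑S : Set ℕ) 𝒪 θ T)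
    (hred : IsReduced T) (𝔞 : Ideal T)
    (h : ∀ P : ValuationSubring Qbar, P.LiesOverPrime p →
      ∃ σ₀ ∈ P.inertiaSubgroupIn ℚ, IsUnit (LinearMap.det (H.ρ.ρ σ₀) - 1) ∧
        ∀ σ' ∈ P.inertiaSubgroupIn ℚ,
          (∀ v, ((H.ρ.ρ σ₀ - LinearMap.det (H.ρ.ρ σ₀) • (1 : Module.End T H.ρ.V)) *
            (H.ρ.ρ σ' - 1)) v ∈ 𝔞 • (⊤ : Submodule T H.ρ.V)) ∧
          ∀ t ∈ 𝔞, t • ((H.ρ.ρ σ₀ - LinearMap.det (H.ρ.ρ σ₀) • (1 : Module.End T H.ρ.V)) *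
            (H.ρ.ρ σ' - 1)) = 0) :
    H.ρ.IsOrdinaryAt p :=
  isOrdinaryAt_of_ideal H.ρ p 𝔞 h

/-- **S33 from the named hypotheses** (0a) `hdet`, (RED) `hred`, (OLD) `hOLD`, (NEW) `hNEW`. -/
theorem result_of_hyps (hp : p.Prime) (hp2 : p ≠ 2)
    (H : CuspForm.HeckeGaloisRepDatum N (↑S : Set ℕ) 𝒪 θ T)
    (hdet : H.ρ.DetIsCyclotomic p)
    (hred : IsReduced T) (𝔞 : Ideal T)
    (hOLD : ∀ P : ValuationSubring Qbar, P.LiesOverPrime p →
      ∀ σ' ∈ P.inertiaSubgroupIn ℚ, ∀ τ ∈ P.inertiaSubgroupIn ℚ, ∀ v : H.ρ.V,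
        ((H.ρ.ρ τ - LinearMap.det (H.ρ.ρ τ) • (1 : Module.End T H.ρ.V)) * (H.ρ.ρ σ' - 1)) v ∈
          𝔞 • (⊤ : Submodule T H.ρ.V))
    (hNEW : ∀ t ∈ 𝔞, ∀ P : ValuationSubring Qbar, P.LiesOverPrime p →
      ∀ σ' ∈ P.inertiaSubgroupIn ℚ, ∀ τ ∈ P.inertiaSubgroupIn ℚ,
        t • ((H.ρ.ρ τ - LinearMap.det (H.ρ.ρ τ) • (1 : Module.End T H.ρ.V)) *
          (H.ρ.ρ σ' - 1)) = 0) :
    H.ρ.IsOrdinaryAt p := by
  have : Fact p.Prime := ⟨hp⟩
  refine result_of_hyps' H hred 𝔞 fun P hP => ?_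
  obtain ⟨σ₀, hσ₀, hu⟩ := exists_inertia_det_sub_one_isUnit H.ρ hp2 hdet P hP
  exact ⟨σ₀, hσ₀, hu, fun σ' hσ' =>
    ⟨hOLD P hP σ' hσ' σ₀ hσ₀, fun t ht => hNEW t ht P hP σ' hσ' σ₀ hσ₀⟩⟩

end Frozen

end Fermat.Agent.S33.Asm.Final
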