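/-
S33 / TOP LEVEL, FAMILY FORM (helper10): THE FROZEN STATEMENT S33 FROM THE NAMED HYPOTHESES OF THE
GALOIS-ANNIHILATOR RE-CUT (helper27 / helper29 / helper10) OF `moonshots` ROW 61.

`Ω(τ, σ') := (ρ τ - det ρ τ)(ρ σ' - 1) ∈ End_T V` for `σ', τ ∈ I_P`, `P | p`.

A decreasing (or arbitrary) family of ideals `𝔞 M` of `T` (`𝔞 M` = the ideal generated by the matrix
entries of `ρ(b)`, `b ∈ ℤ[Γ]` killing `J₀(N/p)[p^M]`) with

* `hOLD : Ω(τ,σ') v ∈ 𝔞 M • ⊤` for every `M` (STEP 1, levelwise over `T`: helper6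
  `Ord/Levelwise.omega_apply_mem` applied to `I := 𝔞 M`, the Hopf orders on the levels above `𝔞 M`
  being tautological from S19 at level `N/p`),
* `hNEW : t • Ω(τ,σ') = 0` for `t ∈ ⨅ M, 𝔞 M` ((NEW-J) + `annIncl_tors_level` at level `N`),
* `hred : IsReduced T` ((RED) = (G1), `S33/Pet/Main` + `S33/G1/Reduced`),
* `hdet : H.ρ.DetIsCyclotomic p` ((0a)),

gives `H.ρ.IsOrdinaryAt p`.

* `eq_zero_of_repr_mem` : the ideal trick in coordinate form;
* `eq_zero_of_family` : the ideal trick for a family of ideals;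
* `isOrdinaryAt_of_family`, `result_of_family'`, **`result_of_family`**.
-/
import Mathlib
import Fermat.Prelude.Def_CuspForm_HeckeGaloisRepDatum
import Fermat.Prelude.Def_GaloisRep_LocalConditions
import Fermat.Agent.S33.Alg
import Fermat.Agent.S33.Asm.Final

set_option autoImplicit false
set_option linter.unusedSectionVars false

namespace Fermat.Agent.S33.Asm.FinalGal

open Module Fermat.Agent.S33.Alg Fermat.Agent.S33.Asm.Final

local notation "Qbar" => AlgebraicClosure ℚ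
local notation "Γ" => (AlgebraicClosure ℚ ≃ₐ[ℚ] AlgebraicClosure ℚ)

/-! ### The ideal trick for a family of ideals -/

section Ideal

variable {A V : Type} [CommRing A] [AddCommGroup V] [Module A V] [Module.Free A V]

/-- **The ideal trick, coordinate form**: over a reduced ring, an endomorphism all of whose
coordinates lie in `𝔞` and which is killed by `𝔞` is zero. -/
theorem eq_zero_of_repr_mem [IsReduced A] {ι : Type} (b : Module.Basis ι A V) (𝔞 : Ideal A)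
    (Ω : Module.End A V) (h1 : ∀ v i, b.repr (Ω v) i ∈ 𝔞) (h2 : ∀ t ∈ 𝔞, t • Ω = 0) : Ω = 0 := by
  apply LinearMap.ext
  intro v
  have hrepr : b.repr (Ω v) = 0 := by
    ext i
    have h0 : b.repr (Ω v) i * b.repr (Ω v) i = 0 := by
      have := LinearMap.congr_fun (h2 _ (h1 v i)) v
      rw [LinearMap.smul_apply, LinearMap.zero_apply] at this
      have h3 := congrArg (fun y => b.repr y i) this
      simpa using h3
    have hnil : IsNilpotent (b.repr (Ω v) i) := ⟨2, by rw [pow_two]; exact h0⟩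
    rw [Finsupp.zero_apply]
    exact hnil.eq_zero
  rw [LinearMap.zero_apply]
  exact b.repr.map_eq_zero_iff.1 hrepr

/-- **The ideal trick for a family**: `Ω v ∈ 𝔞 M • V` for every `M`, and `Ω` killed by `⨅ M, 𝔞 M`,
over a reduced ring: `Ω = 0`. -/
theorem eq_zero_of_family [IsReduced A] {κ : Type} (𝔞 : κ → Ideal A) (Ω : Module.End A V)
    (h1 : ∀ M v, Ω v ∈ 𝔞 M • (⊤ : Submodule A V)) (h2 : ∀ t ∈ ⨅ M, 𝔞 M, t • Ω = 0) : Ω = 0 :=
  eq_zero_of_repr_mem (Module.Free.chooseBasis A V) (⨅ M, 𝔞 M) Ω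
    (fun v i => (Ideal.mem_iInf).2 fun M =>
      repr_mem_of_mem_smul_top (Module.Free.chooseBasis A V) (𝔞 M) (h1 M v) i) h2

end Ideal

/-! ### The ordinary condition from the family form of (OLD) + (NEW) + (RED) -/

section Ord

variable {A : Type} [CommRing A] [IsLocalRing A] (ρ : GaloisRepAdic A) (p : ℕ)

theorem isOrdinaryAt_of_family [IsReduced A] {κ : Type} (𝔞 : κ → Ideal A)
    (h : ∀ P : ValuationSubring Qbar, P.LiesOverPrime p →
      ∃ σ₀ ∈ P.inertiaSubgroupIn ℚ, IsUnit (LinearMap.det (ρ.ρ σ₀) - 1) ∧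
        ∀ σ' ∈ P.inertiaSubgroupIn ℚ,
          (∀ M v, ((ρ.ρ σ₀ - LinearMap.det (ρ.ρ σ₀) • (1 : Module.End A ρ.V)) * (ρ.ρ σ' - 1)) v ∈
            𝔞 M • (⊤ : Submodule A ρ.V)) ∧
          ∀ t ∈ ⨅ M, 𝔞 M, t • ((ρ.ρ σ₀ - LinearMap.det (ρ.ρ σ₀) • (1 : Module.End A ρ.V)) *
            (ρ.ρ σ' - 1)) = 0) :
    ρ.IsOrdinaryAt p := by
  refine isOrdinaryAt_of_forall_omega ρ p fun P hP => ?_
  obtain ⟨σ₀, hσ₀, hu, hΩ⟩ := h P hP
  exact ⟨σ₀, hσ₀, hu, fun σ' hσ' => eq_zero_of_family 𝔞 _ (hΩ σ' hσ').1 (hΩ σ' hσ').2⟩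

end Ord

/-! ### The frozen statement from the named hypotheses, family form -/

section Frozen

variable {p : ℕ} {N : ℕ} [NeZero N] {S : Finset ℕ}
  {𝒪 : Type} [CommRing 𝒪] [IsDomain 𝒪] [IsDiscreteValuationRing 𝒪]
  [IsAdicComplete (IsLocalRing.maximalIdeal 𝒪) 𝒪]
  {θ : CuspForm.heckeAlgebra N 2 (↑S : Set ℕ) →+* IsLocalRing.ResidueField 𝒪}
  {T : Type} [CommRing T] [IsLocalRing T] [IsNoetherianRing T]
  [IsAdicComplete (IsLocalRing.maximalIdeal T) T] [Algebra 𝒪 T] [IsLocalHom (algebraMap 𝒪 T)]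
  [Module.Finite 𝒪 T] [Module.Free 𝒪 T]

/-- **S33 from the named hypotheses, family form** (0a) `hdet`, (RED) `hred`, (OLD) `hOLD`
(levelwise STEP 1 at `I := 𝔞 M`), (NEW) `hNEW` (on `⨅ M, 𝔞 M`). -/
theorem result_of_family (hp : p.Prime) (hp2 : p ≠ 2)
    (H : CuspForm.HeckeGaloisRepDatum N (↑S : Set ℕ) 𝒪 θ T)
    (hdet : H.ρ.DetIsCyclotomic p)
    (hred : IsReduced T) {κ : Type} (𝔞 : κ → Ideal T)
    (hOLD : ∀ M : κ, ∀ P : ValuationSubring Qbar, P.LiesOverPrime p →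
      ∀ σ' ∈ P.inertiaSubgroupIn ℚ, ∀ τ ∈ P.inertiaSubgroupIn ℚ, ∀ v : H.ρ.V,
        ((H.ρ.ρ τ - LinearMap.det (H.ρ.ρ τ) • (1 : Module.End T H.ρ.V)) * (H.ρ.ρ σ' - 1)) v ∈
          𝔞 M • (⊤ : Submodule T H.ρ.V))
    (hNEW : ∀ t ∈ ⨅ M, 𝔞 M, ∀ P : ValuationSubring Qbar, P.LiesOverPrime p →
      ∀ σ' ∈ P.inertiaSubgroupIn ℚ, ∀ τ ∈ P.inertiaSubgroupIn ℚ,
        t • ((H.ρ.ρ τ - LinearMap.det (H.ρ.ρ τ) • (1 : Module.End T H.ρ.V)) *
          (H.ρ.ρ σ' - 1)) = 0) :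
    H.ρ.IsOrdinaryAt p := by
  have : Fact p.Prime := ⟨hp⟩
  refine isOrdinaryAt_of_family H.ρ p 𝔞 fun P hP => ?_
  obtain ⟨σ₀, hσ₀, hu⟩ := exists_inertia_det_sub_one_isUnit H.ρ hp2 hdet P hP
  exact ⟨σ₀, hσ₀, hu, fun σ' hσ' =>
    ⟨fun M v => hOLD M P hP σ' hσ' σ₀ hσ₀ v, fun t ht => hNEW t ht P hP σ' hσ' σ₀ hσ₀⟩⟩

end Frozen

end Fermat.Agent.S33.Asm.FinalGal
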