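/-
S33 / top level (helper29): **two glue lemmas for the assembly.**

* `finite_quotient_of_natCast_mem` : `𝒪` a DVR of characteristic `0` with finite residue field, `T` a
  finite `𝒪`-algebra, `𝔞` an ideal of `T` containing a non-zero natural number: then `T ⧸ 𝔞` is finite.
  (Applied to `p ^ M ∈ 𝔞 M`.)
* `repr_mem_of_forall_apply_mem` : an endomorphism `f` with `f v ∈ 𝔞 • ⊤` for all `v` has all its
  entries (in any basis) in `𝔞`.
-/
import Mathlib

set_option autoImplicit false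
set_option linter.style.haveILetI false

namespace Fermat.Agent.S33.Asm.Glue

section Finite

variable {𝒪 : Type*} [CommRing 𝒪] [IsDomain 𝒪] [IsDiscreteValuationRing 𝒪]
  [Finite (IsLocalRing.ResidueField 𝒪)]

/-- In a DVR with finite residue field, every non-zero ideal has finite index. -/
theorem finite_quotient_of_ne_bot (q : Ideal 𝒪) (hq : q ≠ ⊥) : Finite (𝒪 ⧸ q) := by
  obtain ⟨ϖ, hϖ⟩ := IsDiscreteValuationRing.exists_irreducible 𝒪
  obtain ⟨n, hn⟩ := IsDiscreteValuationRing.ideal_eq_span_pow_irreducible hq hϖ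
  have hmax : IsLocalRing.maximalIdeal 𝒪 = Ideal.span {ϖ} := hϖ.maximalIdeal_eq
  have hqn : q = IsLocalRing.maximalIdeal 𝒪 ^ n := by
    rw [hn, hmax, Ideal.span_singleton_pow]
  rw [hqn]
  haveI : Finite (𝒪 ⧸ IsLocalRing.maximalIdeal 𝒪) :=
    inferInstanceAs (Finite (IsLocalRing.ResidueField 𝒪))
  exact Ideal.finite_quotient_pow (hmax ▸ ⟨{ϖ}, by simp⟩) n

/-- `T ⧸ 𝔞` is finite as soon as `𝔞` contains a non-zero natural number. -/
theorem finite_quotient_of_natCast_mem (𝒪 : Type*) [CommRing 𝒪] [IsDomain 𝒪]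
    [IsDiscreteValuationRing 𝒪] [Finite (IsLocalRing.ResidueField 𝒪)] [CharZero 𝒪]
    {T : Type*} [CommRing T] [Algebra 𝒪 T] [Module.Finite 𝒪 T] (𝔞 : Ideal T) (n : ℕ) (hn : n ≠ 0) (h : (n : T) ∈ 𝔞) :
    Finite (T ⧸ 𝔞) := by
  have hx : (n : 𝒪) ≠ 0 := Nat.cast_ne_zero.mpr hn
  let q : Ideal 𝒪 := Ideal.span {(n : 𝒪)}
  have hq : q ≠ ⊥ := by
    intro h0
    exact hx ((Ideal.span_singleton_eq_bot).mp h0)
  haveI : Finite (𝒪 ⧸ q) := finite_quotient_of_ne_bot q hq
  haveI : Finite (T ⧸ (⊤ : Submodule 𝒪 T)) := by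
    haveI : Subsingleton (T ⧸ (⊤ : Submodule 𝒪 T)) := Submodule.Quotient.subsingleton_iff.mpr rfl
    infer_instance
  have hfin : Finite (T ⧸ (q • (⊤ : Submodule 𝒪 T))) :=
    Submodule.finite_quotient_smul q (Module.Finite.fg_top)
  have hle : q • (⊤ : Submodule 𝒪 T) ≤ 𝔞.restrictScalars 𝒪 := by
    rw [Submodule.smul_le]
    intro r hr t _
    obtain ⟨c, rfl⟩ := Ideal.mem_span_singleton'.mp hr
    rw [Submodule.restrictScalars_mem, Algebra.smul_def, map_mul, map_natCast, mul_assoc]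
    exact Ideal.mul_mem_left _ _ (Ideal.mul_mem_right _ _ h)
  let g : (T ⧸ (q • (⊤ : Submodule 𝒪 T))) →ₗ[𝒪] (T ⧸ 𝔞.restrictScalars 𝒪) :=
    Submodule.mapQ _ _ LinearMap.id (by simpa using hle)
  have hg : Function.Surjective g := by
    intro y
    obtain ⟨t, rfl⟩ := Submodule.Quotient.mk_surjective _ y
    exact ⟨Submodule.Quotient.mk t, rfl⟩
  have h2 : Finite (T ⧸ 𝔞.restrictScalars 𝒪) := Finite.of_surjective g hg
  let e : (T ⧸ 𝔞.restrictScalars 𝒪) → (T ⧸ 𝔞) := fun y =>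
    Quotient.liftOn' y (fun t => Ideal.Quotient.mk 𝔞 t) (by
      intro a b hab
      rw [Ideal.Quotient.eq]
      have := (QuotientAddGroup.leftRel_apply).mp hab
      have h3 : -a + b ∈ 𝔞 := this
      have h4 : a - b = -(-a + b) := by ring
      rw [h4]
      exact 𝔞.neg_mem h3)
  refine Finite.of_surjective e ?_
  intro y
  obtain ⟨t, rfl⟩ := Ideal.Quotient.mk_surjective y
  exact ⟨Submodule.Quotient.mk t, rfl⟩

end Finite

section Entries

variable {A : Type*} [CommRing A] {V : Type*} [AddCommGroup V] [Module A V] {ι : Type*}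

/-- The coordinates of an element of `𝔞 • ⊤` lie in `𝔞`. -/
theorem repr_mem_of_mem_smul_top (b : Module.Basis ι A V) (𝔞 : Ideal A) {x : V}
    (hx : x ∈ 𝔞 • (⊤ : Submodule A V)) (i : ι) : b.repr x i ∈ 𝔞 := by
  refine Submodule.smul_induction_on (p := fun x => b.repr x i ∈ 𝔞) hx ?_ ?_
  · intro r hr y _
    rw [map_smul, Finsupp.smul_apply, smul_eq_mul]
    exact Ideal.mul_mem_right _ _ hr
  · intro y z hy hz
    rw [map_add, Finsupp.add_apply]
    exact 𝔞.add_mem hy hz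

/-- An endomorphism with values in `𝔞 • ⊤` has its entries in `𝔞`. -/
theorem repr_mem_of_forall_apply_mem (b : Module.Basis ι A V) (𝔞 : Ideal A) (f : Module.End A V)
    (hf : ∀ v : V, f v ∈ 𝔞 • (⊤ : Submodule A V)) (i j : ι) : b.repr (f (b j)) i ∈ 𝔞 :=
  repr_mem_of_mem_smul_top b 𝔞 (hf (b j)) i

end Entries

end Fermat.Agent.S33.Asm.Glue
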