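/-
S33 / TOP LEVEL WIRING (helper10): THE FROZEN STATEMENT S33 FROM THE SINGLE GEOMETRIC TARGET
`NewJOfRoot.NewRootInertia N' p c` OF STEP L (`N = N' * p`).

`result_of_newRootInertia` : the frozen hypotheses of S33 + `NewRootInertia N' p c` for the `N'` with
`N = N' * p` give `H.ρ.IsOrdinaryAt p`.

Chain: `NewJOfRoot.newJ_of_newRootInertia` (helper11/helper12) ⟹ `Transfer.NewJ (N' * p) N' p (p^c)`
⟹ `Transfer.exists_oldIdeals` (helper27; S19 at level `N'`, `p ∤ N'`) ⟹ `Asm/Top.result_of_oldIdeals`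
(helper15; (σ₀), (RED), (ORD) discharged inside).
-/
import Mathlib
import Fermat.Agent.S19
import Fermat.Agent.S19.Base.OfS19
import Fermat.Agent.S33.Asm.Top
import Fermat.Agent.S33.New.Transfer
import Fermat.Agent.S33.New.NewJOfRoot

set_option autoImplicit false
set_option linter.unusedSectionVars false

namespace Fermat.Agent.S33.Asm.WireGal

open Fermat.Agent.S19.Abs Fermat.Agent.S19.Base GaloisRep

local notation "Qbar" => AlgebraicClosure ℚ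
local notation "Γ" => (AlgebraicClosure ℚ ≃ₐ[ℚ] AlgebraicClosure ℚ)

section Frozen

variable {p : ℕ} {N : ℕ} [NeZero N] {S : Finset ℕ}
  {𝒪 : Type} [CommRing 𝒪] [IsDomain 𝒪] [IsDiscreteValuationRing 𝒪]
  [IsAdicComplete (IsLocalRing.maximalIdeal 𝒪) 𝒪]
  {θ : CuspForm.heckeAlgebra N 2 (↑S : Set ℕ) →+* IsLocalRing.ResidueField 𝒪}
  {T : Type} [CommRing T] [IsLocalRing T] [IsNoetherianRing T]
  [IsAdicComplete (IsLocalRing.maximalIdeal T) T] [Algebra 𝒪 T] [IsLocalHom (algebraMap 𝒪 T)]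
  [Module.Finite 𝒪 T] [Module.Free 𝒪 T]

/-- **S33 from `NewJ`** at an explicit `N'` with `p ∤ N'` (no relation between `N` and `N'` is needed
here: it is hidden in `NewJ N N' p k`). -/
theorem result_of_newJ
    [Finite (IsLocalRing.ResidueField 𝒪)] [CharZero 𝒪]
    (hp : p.Prime) (hp2 : p ≠ 2) (hp𝒪 : (p : 𝒪) ∈ IsLocalRing.maximalIdeal 𝒪)
    (hN : p ∣ N ∧ ¬ p ^ 2 ∣ N)
    (hNS : ∀ q : ℕ, q.Prime → q ∣ N → q ∈ S)
    (H : CuspForm.HeckeGaloisRepDatum N (↑S : Set ℕ) 𝒪 θ T)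
    (hres : (GaloisRepAdic.ofResidualGaloisRep H.ρ.residual).IsOrdinaryAt p)
    (N' : ℕ) [NeZero N'] (hpN' : ¬ p ∣ N')
    {k : ℤ} (hk : k ≠ 0) (hJ : Fermat.Agent.S33.New.Transfer.NewJ N N' p k) :
    H.ρ.IsOrdinaryAt p := by
  have : Fact p.Prime := ⟨hp⟩
  have hpS : p ∈ S := hNS p hp hN.1
  have hS19 : ∀ j : ℕ, HasHopfOrder p (torsAct N' p j) := fun j =>
    Fermat.Agent.S19.Base.hasHopfOrder_tors_of_s19 N' p j (Fermat.Agent.S19.result N' p hpN' j)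
  obtain ⟨𝔞, hpow, hHopf, hnew⟩ :=
    Fermat.Agent.S33.New.Transfer.exists_oldIdeals H hp hp2 hp𝒪 hpS hNS N' hS19 hk hJ
  refine Fermat.Agent.S33.Asm.Top.result_of_oldIdeals hp hp2 hp𝒪 hN hNS H hres
    ⟨𝔞, fun M => ?_, hHopf, fun c hc P hP τ hτ σ' hσ' => ?_⟩
  · have := hpow M
    rwa [Nat.cast_pow] at this
  · have := hnew P hP τ hτ σ' hσ' c hc
    rw [Fermat.Agent.S33.Alg.Ordinary.Omega, Algebra.algebraMap_eq_smul_one] at this
    exact this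

/-- **S33 from the single target of STEP L**: `NewRootInertia N' p c` for the `N'` with
`N = N' * p`. -/
theorem result_of_newRootInertia
    [Finite (IsLocalRing.ResidueField 𝒪)] [CharZero 𝒪]
    (hp : p.Prime) (hp2 : p ≠ 2) (hp𝒪 : (p : 𝒪) ∈ IsLocalRing.maximalIdeal 𝒪)
    (hN : p ∣ N ∧ ¬ p ^ 2 ∣ N)
    (hNS : ∀ q : ℕ, q.Prime → q ∣ N → q ∈ S)
    (H : CuspForm.HeckeGaloisRepDatum N (↑S : Set ℕ) 𝒪 θ T)
    (hres : (GaloisRepAdic.ofResidualGaloisRep H.ρ.residual).IsOrdinaryAt p)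
    (c : ℕ)
    (hroot : ∀ (N' : ℕ) [NeZero N'] [NeZero p], N = N' * p → ¬ p ∣ N' →
      Fermat.Agent.S33.New.NewJOfRoot.NewRootInertia N' p c) :
    H.ρ.IsOrdinaryAt p := by
  obtain ⟨N', hN'⟩ := hN.1
  rw [mul_comm] at hN'
  have hN'0 : N' ≠ 0 := by
    rintro rfl
    rw [zero_mul] at hN'
    exact NeZero.ne N hN'
  have : NeZero N' := ⟨hN'0⟩
  have : NeZero p := ⟨hp.ne_zero⟩
  have hpN' : ¬ p ∣ N' := by
    rintro ⟨m', rfl⟩
    exact hN.2 ⟨m', by rw [hN', pow_two]; ring⟩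
  have hr := hroot N' hN' hpN'
  have hk : (((p ^ c : ℕ) : ℤ)) ≠ 0 := by
    exact_mod_cast pow_ne_zero c hp.ne_zero
  refine result_of_newJ hp hp2 hp𝒪 hN hNS H hres N' hpN' hk ?_
  subst hN'
  exact fun m => Fermat.Agent.S33.New.NewJOfRoot.newJ_of_newRootInertia N' p hr m

end Frozen

end Fermat.Agent.S33.Asm.WireGal
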